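import Fermat.Agent.MU.F3.I2.Kappa.Theta
import Fermat.Agent.MU.F3.I2.Char
import Fermat.Agent.MU.F3.I2.Kappa.CharOf
import Fermat.Agent.F3.I2.DictInterface
import Fermat.Agent.MU.F3.I2.Kappa.Exists
import Fermat.Agent.F3.Interfaces

section MergeWrap_F3_I2_Kappa_Kernel -- from F3/I2/Kappa/Kernel.lean

set_option autoImplicit false

noncomputable section

namespace Fermat.Agent.F3I2

open UpperHalfPlane CongruenceSubgroup ModularCurve AlgebraicCurve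
open scoped MatrixGroups ModularForm Manifold
open Fermat.Agent.S23 Fermat.Agent.S28.QExp

variable {N : ℕ} [NeZero N]

theorem exists_ne_zero_of_ne_zero {F : ℍ → ℂ} (hF : F ≠ 0) : ∃ τ, F τ ≠ 0 := by
  by_contra hcon
  push Not at hcon
  exact hF (funext hcon)

/-- A nonzero function has at most one character. -/
theorem IsFormChar.char_unique {w w' : ℤ} {χ χ' : ↥(Gamma0 N) →* ℂˣ} {F : ℍ → ℂ}
    (h : IsFormChar N w χ F) (h' : IsFormChar N w' χ' F) (hw : w = w') (hF : F ≠ 0) :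
    χ = χ' := by
  subst hw
  obtain ⟨τ, hτ⟩ := exists_ne_zero_of_ne_zero hF
  ext γ
  have h1 := congrFun ((h.slash γ).symm.trans (h'.slash γ)) τ
  simp only [Pi.smul_apply, smul_eq_mul] at h1
  exact mul_right_cancel₀ hτ h1

theorem qLaurent_smul_of_isMF {w : ℤ} {F : ℍ → ℂ} (hF : IsMF (G0 N) w F) (a : ℂ) :
    qLaurent (a • F) = a • qLaurent F :=
  (dict1_hasQ_of_isMF (hF.smul a)).unique ((dict1_hasQ_of_isMF hF).smul a)

theorem isMF_mdiff {w : ℤ} {F : ℍ → ℂ} (hF : IsMF (G0 N) w F) : MDiff F := by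
  obtain ⟨A, rfl⟩ := hF
  exact A.holo'

/-- **Kernel**: if the class attached to a character `χ` vanishes, then `χ = 1`. -/
theorem IsTheta.char_eq_one (hC : DictConst N) {n : ℕ} (hn : n ≠ 0)
    {χ : ↥(Gamma0 N) →* ℂˣ} (h : IsTheta N n χ 0) : χ = 1 := by
  obtain ⟨hχ, w, f, B, x, D, hf, hB, hf0, hB0, hr, hD, hmk⟩ := h
  obtain ⟨y, hy0, hy⟩ := hD.exists_of_mk_eq_zero hmk
  have hx0 : x ≠ 0 := hD.1
  -- `x / y^n` is a constant
  have hyn0 : y ^ n ≠ 0 := pow_ne_zero n hy0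
  have hz0 : x * (y ^ n)⁻¹ ≠ 0 := mul_ne_zero hx0 (inv_ne_zero hyn0)
  have hzord : ∀ v : Place ℂ (FC N), v.ord (x * (y ^ n)⁻¹) = 0 := by
    intro v
    rw [Place.ord_mul v hx0 (inv_ne_zero hyn0), Place.ord_inv, hy v]
    have : v.ord (y ^ n) = (n : ℤ) * v.ord y := by
      have := Place.ord_zpow v y (n : ℤ)
      rwa [zpow_natCast] at this
    rw [this]
    ring
  obtain ⟨a, ha⟩ := hC _ hz0 hzord
  have hxa : x = algebraMap ℂ (FC N) a * y ^ n := by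
    rw [← ha, mul_assoc, inv_mul_cancel₀ hyn0, mul_one]
  have ha0 : a ≠ 0 := by
    rintro rfl
    rw [map_zero, zero_mul] at hxa
    exact hx0 hxa
  -- `y` as a ratio
  obtain ⟨f₁, g₁, hf₁0, hy1⟩ := exists_isRatioF_of_ne_zero hy0
  have hyn := IsRatioF.one_pow n hy1
  obtain ⟨hg₁n0, ⟨W, hf₁m, hg₁m⟩, hq⟩ := hyn
  obtain ⟨hg₁0, ⟨w₁, hf₁w, hg₁w⟩, -⟩ := hy1
  have hxr : IsRatioF N x (a • f₁ ^ n) (g₁ ^ n) := by
    refine ⟨hg₁n0, ⟨W, hf₁m.smul a, hg₁m⟩, ?_⟩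
    rw [qLaurent_smul_of_isMF hf₁m, hq, hxa]
    push_cast
    rw [← HahnSeries.C_mul_eq_smul]
    have hCa : algebraMap ℂ (LaurentSeries ℂ) a = HahnSeries.C a := by
      rw [ModularCurve.algebraMap_laurentSeries_eq_single]
      rfl
    rw [hCa]
    ring
  have hcross := hr.cross hxr
  -- an `n`-th root of `a`
  obtain ⟨b, hb⟩ := IsAlgClosed.exists_pow_nat_eq a (Nat.pos_of_ne_zero hn)
  have hb0 : b ≠ 0 := by
    rintro rfl
    rw [zero_pow hn] at hb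
    exact ha0 hb.symm
  have hpow : ∀ τ, (f * g₁) τ ^ n = (b • (f₁ * B)) τ ^ n := by
    intro τ
    have := congrFun hcross τ
    simp only [Pi.mul_apply, Pi.pow_apply, Pi.smul_apply, smul_eq_mul] at this ⊢
    rw [mul_pow, this, mul_pow, mul_pow, hb]
    ring
  have hBm : IsMF (G0 N) w B := hB.isMF
  have hf₁B : IsMF (G0 N) (w₁ + w) (f₁ * B) := hf₁w.mul hBm
  have hf₁B0 : f₁ * B ≠ 0 := isMF_mul_ne_zero hf₁w hBm hf₁0 hB0
  have hbf₁B0 : b • (f₁ * B) ≠ 0 := by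
    obtain ⟨τ, hτ⟩ := exists_ne_zero_of_ne_zero hf₁B0
    intro h0
    have := congrFun h0 τ
    simp only [Pi.smul_apply, smul_eq_mul, Pi.zero_apply] at this
    exact (mul_ne_zero hb0 hτ) this
  have hfg₁ : IsFormChar N (w + w₁) (χ * 1) (f * g₁) := hf.mul (isFormChar_of_isMF hg₁w)
  obtain ⟨ζ, hζn, hζ⟩ := exists_smul_of_pow_eq_pow hfg₁.mdiff (isMF_mdiff (hf₁B.smul b)) hbf₁B0 hn hpow
  have hfg₁' : IsFormChar N (w₁ + w) 1 (f * g₁) := by
    have h1 : f * g₁ = ζ • (b • (f₁ * B)) := by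
      ext τ
      rw [hζ τ]
      rfl
    rw [h1]
    exact isFormChar_of_isMF ((hf₁B.smul b).smul ζ)
  have hfg₁0 : f * g₁ ≠ 0 := by
    intro h0
    obtain ⟨τ, hτ⟩ := exists_ne_zero_of_ne_zero hbf₁B0
    have h1 := hpow τ
    rw [h0] at h1
    simp only [Pi.zero_apply, zero_pow hn] at h1
    exact hτ (pow_eq_zero_iff hn |>.1 h1.symm)
  have := hfg₁.char_unique hfg₁' (add_comm w w₁) hfg₁0
  exact (mul_one χ).symm.trans this

end Fermat.Agent.F3I2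
end
end MergeWrap_F3_I2_Kappa_Kernel

section MergeWrap_F3_I2_Kappa_Hecke -- from F3/I2/Kappa/Hecke.lean

set_option autoImplicit false
set_option linter.unusedVariables false
set_option linter.style.haveILetI false

noncomputable section

namespace Fermat.Agent.F3I2

open UpperHalfPlane CongruenceSubgroup ModularCurve AlgebraicCurve
open scoped MatrixGroups ModularForm Manifold
open Fermat.Agent.S23 Fermat.Agent.F3EC
open P2MW.S_ModularForm_heckeT_slash_eq_self_of_mem_Gamma0.ModularForm.HeckeSlashInvariance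

variable {N : ℕ}

theorem heckeTransfer_one {ℓ : ℕ} [Fact ℓ.Prime] (hℓN : ¬ ℓ ∣ N) :
    heckeTransfer hℓN (1 : ↥(Gamma0 N) →* ℂˣ) = 1 := by
  ext γ
  simp [heckeTransfer_apply]

theorem kappaHecke_prod_zpow {ι : Type*} (s : Finset ι) (a : ℂˣ) (f : ι → ℤ) :
    ∏ i ∈ s, a ^ f i = a ^ ∑ i ∈ s, f i := by
  classical
  induction s using Finset.induction_on with
  | empty => simp
  | insert i s hi ih => rw [Finset.prod_insert hi, Finset.sum_insert hi, zpow_add, ih]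

theorem heckeTransfer_charOf (ℓ : Nat.Primes) (hℓN : ¬ (ℓ : ℕ) ∣ N) (n : ℕ) (c : HomPar N) :
    haveI : Fact (ℓ : ℕ).Prime := ⟨ℓ.2⟩
    heckeTransfer hℓN (charOf n c) = charOf n (heckeHom N ℓ c) := by
  haveI : Fact (ℓ : ℕ).Prime := ⟨ℓ.2⟩
  apply MonoidHom.ext
  intro γ
  rw [heckeTransfer_apply, charOf_apply, heckeHom_apply ℓ hℓN c γ]
  simp only [charOf_apply]
  exact kappaHecke_prod_zpow _ _ _

theorem heckeTransfer_pow_eq_one {ℓ : ℕ} [Fact ℓ.Prime] (hℓN : ¬ ℓ ∣ N) {n : ℕ}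
    {χ : ↥(Gamma0 N) →* ℂˣ} (hχ : ∀ γ, χ γ ^ n = 1) (γ : ↥(Gamma0 N)) :
    heckeTransfer hℓN χ γ ^ n = 1 := by
  rw [heckeTransfer_apply, ← Finset.prod_pow]
  exact Finset.prod_eq_one fun x _ => hχ _

/-- the slash of a power. -/
theorem kappaHecke_pow_slash (n : ℕ) (w : ℤ) (f : ℍ → ℂ) (g : GL (Fin 2) ℝ) :
    (f ^ n) ∣[(n : ℤ) * w] g = (|g.det.val| ^ ((n : ℤ) - 1)) • (f ∣[w] g) ^ n := by
  have h := ModularForm.prod_slash (k := w) (g := g) (f := fun _ : ℕ => f) (s := Finset.range n)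
  simp only [Finset.prod_const, Finset.card_range] at h
  rw [mul_comm]
  exact h

/-- the Hecke product of a power is a constant times the power of the Hecke product. -/
theorem kappaHecke_heckeProd_pow {ℓ : ℕ} [Fact ℓ.Prime] (n : ℕ) (w : ℤ) (f : ℍ → ℂ) :
    (fun z => ∏ i : OnePoint (ZMod ℓ), ((f ^ n) ∣[(n : ℤ) * w] heckeRep ℓ i) z) =
      (∏ i : OnePoint (ZMod ℓ), |(heckeRep ℓ i).det.val| ^ ((n : ℤ) - 1)) •
        (fun z => ∏ i : OnePoint (ZMod ℓ), (f ∣[w] heckeRep ℓ i) z) ^ n := by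
  funext z
  simp only [kappaHecke_pow_slash, Pi.smul_apply, Pi.pow_apply, Complex.real_smul]
  rw [Finset.prod_mul_distrib, Finset.prod_pow]
  push_cast
  rfl

variable [NeZero N]

set_option maxHeartbeats 800000 in
/-- **(E')** the function-level core of Lemma E: if `x'` is the Hecke norm of `x = f^n / B^n`,
then `x' = (Hf)^n / (HB)^n` for the Hecke products `Hf = ∏_i f ∣ α_i`, `HB = ∏_i B ∣ α_i`. -/
theorem isRatioF_heckeProd_pow {ℓ : ℕ} [Fact ℓ.Prime] (hℓN : ¬ ℓ ∣ N) {x x' : FC N}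
    (hT : ∀ (w : ℤ) (A B : ModularForm (Gamma0 N) w), A ≠ 0 → IsRatio N x A B →
      ∀ (w' : ℤ) (A' B' : ModularForm (Gamma0 N) w'),
        (⇑A' = fun z => ∏ i : OnePoint (ZMod ℓ), (⇑A ∣[w] heckeRep ℓ i) z) →
        (⇑B' = fun z => ∏ i : OnePoint (ZMod ℓ), (⇑B ∣[w] heckeRep ℓ i) z) →
        IsRatio N x' A' B') {n : ℕ} {w : ℤ} {χ : ↥(Gamma0 N) →* ℂˣ} {f B : ℍ → ℂ}
    (hf : IsFormChar N w χ f) (hB : IsFormChar N w 1 B) (hf0 : f ≠ 0) (hB0 : B ≠ 0)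
    (hχn : ∀ γ, χ γ ^ n = 1) (hx : IsRatioF N x (f ^ n) (B ^ n)) :
    IsRatioF N x' ((fun z => ∏ i : OnePoint (ZMod ℓ), (f ∣[w] heckeRep ℓ i) z) ^ n)
      ((fun z => ∏ i : OnePoint (ZMod ℓ), (B ∣[w] heckeRep ℓ i) z) ^ n) := by
  have hχ' := heckeTransfer_pow_eq_one hℓN hχn
  have hHf := hf.heckeProd hℓN
  have hHB : IsFormChar N (w * (ℓ + 1)) 1
      (fun z => ∏ i : OnePoint (ZMod ℓ), (B ∣[w] heckeRep ℓ i) z) :=
    (hB.heckeProd hℓN).cast rfl (heckeTransfer_one hℓN)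
  have hHB0 := heckeProd_ne_zero (ℓ := ℓ) (w := w) hB.mdiff hB0
  have h1n : ∀ γ : ↥(Gamma0 N), (1 : ↥(Gamma0 N) →* ℂˣ) γ ^ n = 1 := fun γ => by simp
  obtain ⟨A, hA⟩ := hf.pow_isMF hχn
  obtain ⟨B', hB'⟩ := hB.pow_isMF h1n
  have hB'0 : B' ≠ 0 := by
    intro h0
    apply pow_ne_zero_fun hB0 n
    rw [← hB', h0]
    rfl
  have hA0 : A ≠ 0 := by
    intro h0
    apply pow_ne_zero_fun hf0 n
    rw [← hA, h0]
    rfl
  have hAB : IsRatio N x A B' := by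
    refine ⟨hB'0, ?_⟩
    rw [hA, hB']
    exact hx.2.2
  -- the Hecke products of `A`, `B'` as modular forms
  have hPA : IsFormChar N ((n : ℤ) * w * (ℓ + 1)) 1
      (fun z => ∏ i : OnePoint (ZMod ℓ), (⇑A ∣[(n : ℤ) * w] heckeRep ℓ i) z) :=
    ((isFormChar_of_modularForm A).heckeProd hℓN).cast rfl (heckeTransfer_one hℓN)
  have hPB : IsFormChar N ((n : ℤ) * w * (ℓ + 1)) 1
      (fun z => ∏ i : OnePoint (ZMod ℓ), (⇑B' ∣[(n : ℤ) * w] heckeRep ℓ i) z) :=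
    ((isFormChar_of_modularForm B').heckeProd hℓN).cast rfl (heckeTransfer_one hℓN)
  obtain ⟨A', hA'⟩ := hPA.exists_modularForm
  obtain ⟨B'', hB''⟩ := hPB.exists_modularForm
  have hratio := (hT ((n : ℤ) * w) A B' hA0 hAB _ A' B'' hA' hB'').isRatioF
  rw [hA', hB'', hA, hB', kappaHecke_heckeProd_pow, kappaHecke_heckeProd_pow] at hratio
  refine hratio.congr (pow_ne_zero_fun hHB0 n) (hHf.pow_isMF hχ') (hHB.pow_isMF h1n) ?_
  funext z
  simp only [Pi.mul_apply, Pi.smul_apply, Pi.pow_apply, Complex.real_smul]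
  ring

/-- Lemma E with an abstract Hecke norm: if `T_ℓ [D] = [E]`, `n • E = div x'` and `x'` is the
Hecke norm of `x`, then `T_ℓ` maps the `θ`-class of `χ` to the `θ`-class of `T_ℓ χ`. -/
theorem IsTheta.hecke_of_heckeNormAt {ℓ : ℕ} [Fact ℓ.Prime] (hℓN : ¬ ℓ ∣ N) {n : ℕ}
    {χ : ↥(Gamma0 N) →* ℂˣ} {w : ℤ} {f B : ℍ → ℂ} {x x' : FC N}
    {E : Divisor.degZero (K := ℂ) (F := FC N)}
    (hχ : ∀ γ, χ γ ^ n = 1)
    (hf : IsFormChar N w χ f) (hB : IsFormChar N w 1 B) (hf0 : f ≠ 0) (hB0 : B ≠ 0)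
    (hx : IsRatioF N x (f ^ n) (B ^ n)) (hT : ∀ (w : ℤ) (A B : ModularForm (Gamma0 N) w), A ≠ 0 → IsRatio N x A B →
      ∀ (w' : ℤ) (A' B' : ModularForm (Gamma0 N) w'),
        (⇑A' = fun z => ∏ i : OnePoint (ZMod ℓ), (⇑A ∣[w] heckeRep ℓ i) z) →
        (⇑B' = fun z => ∏ i : OnePoint (ZMod ℓ), (⇑B ∣[w] heckeRep ℓ i) z) →
        IsRatio N x' A' B') (hE : IsRootDiv n x' E) :
    IsTheta N n (heckeTransfer hℓN χ) (Pic0.mk E) :=
  ⟨heckeTransfer_pow_eq_one hℓN hχ, w * (ℓ + 1), _, _, x', E, hf.heckeProd hℓN,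
    (hB.heckeProd hℓN).cast rfl (heckeTransfer_one hℓN),
    heckeProd_ne_zero (ℓ := ℓ) (w := w) hf.mdiff hf0,
    heckeProd_ne_zero (ℓ := ℓ) (w := w) hB.mdiff hB0,
    isRatioF_heckeProd_pow hℓN hT hf hB hf0 hB0 hχ hx, hE, rfl⟩

theorem IsTheta.hecke {ℓ : ℕ} [Fact ℓ.Prime] [NeZero ℓ] (hℓN : ¬ ℓ ∣ N)
    (hH : ModularCurve.HeckeInputsAlong ℂ N ℓ) (hD3 : DictD3 N ℓ) {n : ℕ} (hn : n ≠ 0)
    {χ : ↥(Gamma0 N) →* ℂˣ} {c : Pic0 ℂ (FC N)} (h : IsTheta N n χ c) :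
    IsTheta N n (heckeTransfer hℓN χ) (ModularCurve.heckeOperatorAlong ℂ N ℓ c) := by
  obtain ⟨hχ, w, f, B, x, D, hf, hB, hf0, hB0, hr, hD, rfl⟩ := h
  obtain ⟨E, hE, hEroot⟩ := IsRootDiv.hecke hH hD
  rw [hE]
  exact IsTheta.hecke_of_heckeNormAt hℓN hχ hf hB hf0 hB0 hr (fun w A B hA hAB w' A' B' hA' hB' => hD3 w A B x hA hAB w' A' B' hA' hB') hEroot

end Fermat.Agent.F3I2
end
end MergeWrap_F3_I2_Kappa_Hecke

section MergeWrap_F3_I2_Kappa_KappaC -- from F3/I2/Kappa/KappaC.lean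

set_option autoImplicit false
set_option linter.style.haveILetI false

noncomputable section

namespace Fermat.Agent.F3I2

open UpperHalfPlane CongruenceSubgroup ModularCurve AlgebraicCurve
open scoped MatrixGroups ModularForm Manifold
open Fermat.Agent.S23 Fermat.Agent.F3EC

variable {N : ℕ} [NeZero N]

/-- From level `d * n` to level `n`: same function, `d`-th powers of the forms, `d • D`. -/
theorem IsTheta.of_mul {n d : ℕ} {χ : ↥(Gamma0 N) →* ℂˣ} {c : Pic0 ℂ (FC N)}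
    (h : IsTheta N (d * n) χ c) : IsTheta N n (χ ^ d) (d • c) := by
  obtain ⟨hχ, w, f, B, x, D, hf, hB, hf0, hB0, hr, hD, rfl⟩ := h
  refine ⟨fun γ => by rw [MonoidHom.pow_apply, ← pow_mul, hχ], d * w, f ^ d, B ^ d, x, d • D,
    hf.pow d, (hB.pow d).cast rfl (by ext γ; simp), pow_ne_zero_fun hf0 d, pow_ne_zero_fun hB0 d,
    ?_, ?_, ?_⟩
  · rw [← pow_mul, ← pow_mul]
    exact hr
  · refine ⟨hD.1, fun v => ?_⟩
    have h1 := hD.2 v
    rw [← h1]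
    simp only [AddSubgroup.coe_nsmul, Finsupp.coe_smul, Pi.smul_apply, nsmul_eq_mul,
      Nat.cast_mul]
    ring
  · exact map_nsmul (QuotientAddGroup.mk' _) d D

section Graph

variable (bc : JZero N →+ Pic0 ℂ (FC N))

/-- The graph of `κ_n`. -/
def IsKappa (n : ℕ) (c : HomPar N) (y : JZero N) : Prop :=
  IsTheta N n (charOf n c) (bc y)

variable {bc}

theorem IsKappa.unique (hinj : Function.Injective bc) {n : ℕ} (hn : n ≠ 0) {c : HomPar N}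
    {y y' : JZero N} (h : IsKappa bc n c y) (h' : IsKappa bc n c y') : y = y' :=
  hinj (IsTheta.unique hn h h')

theorem exists_isKappa (hD2a : DictD2a N) (hHPD : DictHPD N)
    (hsurj : ∀ n : ℕ, 0 < n → ∀ x' : Pic0 ℂ (FC N), n • x' = 0 → ∃ x : JZero N, bc x = x')
    {n : ℕ} (hn : 0 < n) (c : HomPar N) : ∃ y : JZero N, IsKappa bc n c y := by
  obtain ⟨cls, hcls⟩ := exists_isTheta_charOf hD2a hHPD hn.ne' c
  obtain ⟨y, hy⟩ := hsurj n hn cls hcls.nsmul_eq_zero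
  exact ⟨y, by rw [IsKappa, hy]; exact hcls⟩

theorem IsKappa.zero (n : ℕ) : IsKappa bc n (0 : HomPar N) 0 := by
  rw [IsKappa, charOf_zero, map_zero]
  exact IsTheta.one N n

theorem IsKappa.add {n : ℕ} (hn : n ≠ 0) {c c' : HomPar N} {y y' : JZero N}
    (h : IsKappa bc n c y) (h' : IsKappa bc n c' y') : IsKappa bc n (c + c') (y + y') := by
  rw [IsKappa, charOf_add, map_add]
  exact IsTheta.mul hn h h'

theorem IsKappa.nsmul_eq_zero (hinj : Function.Injective bc) {n : ℕ} {c : HomPar N}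
    {y : JZero N} (h : IsKappa bc n c y) : n • y = 0 := by
  apply hinj
  rw [map_nsmul, map_zero]
  exact IsTheta.nsmul_eq_zero h

theorem IsKappa.ker (hC : DictConst N) {n : ℕ} (hn : n ≠ 0) {c : HomPar N}
    (h : IsKappa bc n c 0) : ∃ c' : HomPar N, c = (n : ℤ) • c' := by
  rw [IsKappa, map_zero] at h
  exact exists_eq_smul_of_charOf_eq_one hn c (IsTheta.char_eq_one hC hn h)

theorem IsKappa.compat {n d : ℕ} (hd : d ≠ 0) {c : HomPar N} {y : JZero N}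
    (h : IsKappa bc (d * n) c y) : IsKappa bc n c (d • y) := by
  have h1 := IsTheta.of_mul h
  rw [charOf_compat hd] at h1
  rw [IsKappa, map_nsmul]
  exact h1

theorem IsKappa.hecke (ℓ : Nat.Primes) (hℓN : ¬ (ℓ : ℕ) ∣ N)
    (hH : haveI : NeZero (ℓ : ℕ) := ⟨ℓ.2.ne_zero⟩; ModularCurve.HeckeInputsAlong ℂ N ℓ)
    (hD3 : haveI : NeZero (ℓ : ℕ) := ⟨ℓ.2.ne_zero⟩; DictD3 N ℓ)
    {n : ℕ} (hn : n ≠ 0) {c : HomPar N} {y : JZero N}
    (hT : bc (heckeOperatorBar N ℓ y) =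
      (haveI : NeZero (ℓ : ℕ) := ⟨ℓ.2.ne_zero⟩; ModularCurve.heckeOperatorAlong ℂ N ℓ (bc y)))
    (h : IsKappa bc n c y) : IsKappa bc n (heckeHom N ℓ c) (heckeOperatorBar N ℓ y) := by
  haveI : NeZero (ℓ : ℕ) := ⟨ℓ.2.ne_zero⟩
  haveI : Fact (ℓ : ℕ).Prime := ⟨ℓ.2⟩
  have h1 := IsTheta.hecke hℓN hH hD3 hn h
  rw [heckeTransfer_charOf ℓ hℓN n c] at h1
  rw [IsKappa, hT]
  exact h1

end Graph

/-- **The assembly**: the family `κ_n` from a base change `bc`. -/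
theorem exists_kappa_of_bc (hD2a : DictD2a N) (hHPD : DictHPD N) (hC : DictConst N)
    (hH : ∀ ℓ : Nat.Primes, ¬ (ℓ : ℕ) ∣ N →
      haveI : NeZero (ℓ : ℕ) := ⟨ℓ.2.ne_zero⟩; ModularCurve.HeckeInputsAlong ℂ N ℓ)
    (hD3 : ∀ ℓ : Nat.Primes, ¬ (ℓ : ℕ) ∣ N →
      haveI : NeZero (ℓ : ℕ) := ⟨ℓ.2.ne_zero⟩; DictD3 N ℓ)
    (bc : JZero N →+ Pic0 ℂ (FC N)) (hinj : Function.Injective bc)
    (hsurj : ∀ n : ℕ, 0 < n → ∀ x' : Pic0 ℂ (FC N), n • x' = 0 → ∃ x : JZero N, bc x = x')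
    (hT : ∀ ℓ : Nat.Primes, ¬ (ℓ : ℕ) ∣ N → ∀ (n : ℕ), 0 < n → ∀ y : JZero N, n • y = 0 →
      bc (heckeOperatorBar N ℓ y) =
        (haveI : NeZero (ℓ : ℕ) := ⟨ℓ.2.ne_zero⟩; ModularCurve.heckeOperatorAlong ℂ N ℓ (bc y))) :
    ∃ κ : (n : ℕ) → HomPar N →ₗ[ℤ] Fermat.Agent.F3.Jtors N n,
      (∀ n : ℕ, 0 < n → ∀ c : HomPar N, κ n c = 0 → ∃ c' : HomPar N, c = (n : ℤ) • c') ∧
      (∀ (n d : ℕ) (c : HomPar N), 0 < n → 0 < d →
        (d : ℤ) • ((κ (d * n) c : Fermat.Agent.F3.Jtors N (d * n)) : JZero N) =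
          (κ n c : JZero N)) ∧
      (∀ (n : ℕ) (ℓ : Nat.Primes), ¬ (ℓ : ℕ) ∣ N → ∀ c : HomPar N,
        κ n (heckeHom N ℓ c) = Fermat.Agent.F3.heckeTors N n ℓ (κ n c)) := by
  classical
  -- the choice
  have hex : ∀ (n : ℕ) (c : HomPar N), ∃ y : JZero N, 0 < n → IsKappa bc n c y := by
    intro n c
    rcases Nat.eq_zero_or_pos n with h0 | hn
    · exact ⟨0, fun h => absurd h0 h.ne'⟩
    · obtain ⟨y, hy⟩ := exists_isKappa hD2a hHPD hsurj hn c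
      exact ⟨y, fun _ => hy⟩
  choose k hk using hex
  have hmem : ∀ (n : ℕ) (hn : 0 < n) (c : HomPar N), k n c ∈ Fermat.Agent.F3.Jtors N n := by
    intro n hn c
    rw [Submodule.mem_torsionBy_iff, natCast_zsmul]
    exact (hk n c hn).nsmul_eq_zero hinj
  have hadd : ∀ (n : ℕ) (hn : 0 < n) (c c' : HomPar N), k n (c + c') = k n c + k n c' :=
    fun n hn c c' =>
      (hk n (c + c') hn).unique hinj hn.ne' ((hk n c hn).add hn.ne' (hk n c' hn))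
  have hzero : ∀ (n : ℕ) (hn : 0 < n), k n 0 = 0 := fun n hn =>
    (hk n 0 hn).unique hinj hn.ne' (IsKappa.zero n)
  -- the linear maps
  let κ : (n : ℕ) → HomPar N →ₗ[ℤ] Fermat.Agent.F3.Jtors N n := fun n =>
    if hn : 0 < n then
      (AddMonoidHom.toIntLinearMap
        { toFun := fun c => (⟨k n c, hmem n hn c⟩ : Fermat.Agent.F3.Jtors N n)
          map_zero' := Subtype.ext (hzero n hn)
          map_add' := fun c c' => Subtype.ext (hadd n hn c c') })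
    else 0
  have hκ : ∀ (n : ℕ) (hn : 0 < n) (c : HomPar N),
      ((κ n c : Fermat.Agent.F3.Jtors N n) : JZero N) = k n c := by
    intro n hn c
    simp only [κ, dif_pos hn]
    rfl
  have hκ0 : ∀ (n : ℕ), ¬ 0 < n → ∀ c : HomPar N, κ n c = 0 := by
    intro n hn c
    simp only [κ, dif_neg hn]
    rfl
  refine ⟨κ, ?_, ?_, ?_⟩
  · intro n hn c hc
    have h1 : k n c = 0 := by
      rw [← hκ n hn c, hc]
      rfl
    have h2 := hk n c hn
    rw [h1] at h2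
    exact h2.ker hC hn.ne'
  · intro n d c hn hd
    rw [hκ n hn c, hκ (d * n) (Nat.mul_pos hd hn) c, natCast_zsmul]
    exact ((hk (d * n) c (Nat.mul_pos hd hn)).compat hd.ne').unique hinj hn.ne' (hk n c hn)
  · intro n ℓ hℓN c
    rcases Nat.eq_zero_or_pos n with h0 | hn
    · have hn' : ¬ 0 < n := by omega
      rw [hκ0 n hn', hκ0 n hn', map_zero]
    · apply Subtype.ext
      rw [hκ n hn]
      have h1 : ((Fermat.Agent.F3.heckeTors N n ℓ (κ n c) : Fermat.Agent.F3.Jtors N n) : JZero N)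
          = heckeOperatorBar N ℓ (k n c) := by
        rw [← hκ n hn c]
        rfl
      rw [h1]
      have hy0 : n • k n c = 0 := (hk n c hn).nsmul_eq_zero hinj
      exact (hk n (heckeHom N ℓ c) hn).unique hinj hn.ne'
        ((hk n c hn).hecke ℓ hℓN (hH ℓ hℓN) (hD3 ℓ hℓN) hn.ne' (hT ℓ hℓN n hn (k n c) hy0))

end Fermat.Agent.F3I2
end
end MergeWrap_F3_I2_Kappa_KappaC
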